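import Mathlib

/-!
# Row LT, tower T6, leaf T6.18g3.1a `H820.RootFnC820` (helper333) -- part 2: limits

OFF-MAIN.  Mathlib only.  In a complete field with a valuation in `ℤᵐ⁰`, a sequence with
`|a (n + 1) - a n| ≤ exp (-n)` has a limit `L` with `|L - a n| ≤ exp (-n)`; an element whose
valuation is `≤ exp (-n)` for every `n` is zero.
-/

set_option autoImplicit false

open Filter Topology

noncomputable section

namespace Fermat.Agent.LT.T6.H333

variable {k : Type} [Field k] [Valued k (WithZero (Multiplicative ℤ))]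

local notation "Γ" => WithZero (Multiplicative ℤ)

theorem tail_le333 (a : ℕ → k)
    (h : ∀ n, Valued.v (a (n + 1) - a n) ≤ WithZero.exp (-(n : ℤ))) :
    ∀ n m, n ≤ m → Valued.v (a m - a n) ≤ WithZero.exp (-(n : ℤ)) := by
  intro n m hnm
  induction m, hnm using Nat.le_induction with
  | base => rw [sub_self, map_zero]; exact zero_le
  | succ m hm ih =>
    have e : a (m + 1) - a n = (a (m + 1) - a m) + (a m - a n) := by ring
    rw [e]
    refine Valuation.map_add_le _ ((h m).trans ?_) ih
    rw [WithZero.exp_le_exp]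
    omega

theorem cauchySeq333 (a : ℕ → k)
    (h : ∀ n, Valued.v (a (n + 1) - a n) ≤ WithZero.exp (-(n : ℤ))) : CauchySeq a := by
  rw [(Valued.hasBasis_uniformity k Γ).cauchySeq_iff]
  intro γ _
  have hγ : MonoidWithZeroHom.ValueGroup₀.embedding γ.1 ≠ 0 :=
    MonoidWithZeroHom.ValueGroup₀.embedding_unit_ne_zero γ
  obtain ⟨N, hN⟩ : ∃ N : ℕ,
      WithZero.exp (-(N : ℤ)) < MonoidWithZeroHom.ValueGroup₀.embedding γ.1 := by
    refine ⟨(1 - WithZero.log (MonoidWithZeroHom.ValueGroup₀.embedding γ.1)).toNat, ?_⟩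
    rw [← WithZero.lt_log_iff_exp_lt hγ]
    omega
  refine ⟨N, fun m hm n hn => ?_⟩
  show Valued.v.restrict (a n - a m) < γ.1
  rw [Valuation.restrict_lt_iff_lt_embedding]
  refine lt_of_le_of_lt ?_ hN
  have e : a n - a m = (a n - a N) - (a m - a N) := by ring
  rw [e]
  exact Valuation.map_sub_le _ (tail_le333 a h N n hn) (tail_le333 a h N m hm)

/-- The limit of a fast Cauchy sequence, with the ultrametric bound. -/
theorem exists_lim333 [CompleteSpace k] (a : ℕ → k)
    (h : ∀ n, Valued.v (a (n + 1) - a n) ≤ WithZero.exp (-(n : ℤ))) :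
    ∃ L : k, ∀ n, Valued.v (L - a n) ≤ WithZero.exp (-(n : ℤ)) := by
  obtain ⟨L, hL⟩ := cauchySeq_tendsto_of_complete (cauchySeq333 a h)
  refine ⟨L, fun n => ?_⟩
  by_contra hcon
  rw [not_le] at hcon
  have hne : Valued.v (L - a n) ≠ 0 := by
    intro h0
    rw [h0] at hcon
    exact absurd hcon (not_lt.mpr zero_le)
  have hT : Tendsto (fun m => a m - a n) atTop (𝓝 (L - a n)) := hL.sub_const (a n)
  have hev := hT (Valued.locally_const hne)
  rw [Filter.mem_map, Filter.mem_atTop_sets] at hev
  obtain ⟨M, hM⟩ := hev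
  have h1 : Valued.v (a (max M n) - a n) = Valued.v (L - a n) := hM (max M n) (le_max_left _ _)
  have h2 := tail_le333 a h n (max M n) (le_max_right _ _)
  rw [h1] at h2
  exact absurd hcon (not_lt.mpr h2)

/-- An element of valuation `≤ exp (-n)` for every `n` is zero. -/
theorem eq_zero_of_forall_le333 (x : k) (h : ∀ n : ℕ, Valued.v x ≤ WithZero.exp (-(n : ℤ))) :
    x = 0 := by
  by_contra hx
  have hv : Valued.v x ≠ 0 := (Valuation.ne_zero_iff _).mpr hx
  have h1 := h (1 - WithZero.log (Valued.v x)).toNat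
  rw [← WithZero.log_le_iff_le_exp hv] at h1
  omega

end Fermat.Agent.LT.T6.H333

end
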