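import Fermat.Agent.LT.T6.H333.QNorm
import Fermat.Agent.LT.T6.H333.Lim

/-!
# Row LT, tower T6, leaf T6.18g3.1a `H820.RootFnC820` (helper333) -- part 3: the `l`-th root

OFF-MAIN.  Mathlib only.  `k` complete with a valuation in `ℤᵐ⁰`, `A = QuadraticAlgebra k α β`,
`|α|, |β| ≤ 1`, `l ≠ 0` in `k`, `λ = |l|`, `ε = exp (-s)`, `s ≥ 1`, `ρ = λ ε`.

* `exists_root333`: every `x₀` with `‖x₀ - 1‖ ≤ λ² ε` is `z ^ l` with `‖z - 1‖ ≤ λ ε`
  (simplified Newton iteration `z ↦ z - (z ^ l - x₀) / l`, a contraction of ratio `ε`).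
* `root_near333`: two such roots, of two elements with the same coordinates in two quadratic
  algebras, have coordinates which differ by at most `λ⁻¹ max |α - α'| |β - β'|`.
-/

set_option autoImplicit false

noncomputable section

namespace Fermat.Agent.LT.T6.H333

variable {k : Type} [Field k] [Valued k (WithZero (Multiplicative ℤ))]

local notation "Γ" => WithZero (Multiplicative ℤ)

theorem val_natCast_le_one333 (n : ℕ) : Valued.v (n : k) ≤ 1 := by
  induction n with
  | zero => rw [Nat.cast_zero, map_zero]; exact zero_le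
  | succ n ih =>
    rw [Nat.cast_succ]
    exact Valuation.map_add_le _ ih (le_of_eq (Valuation.map_one _))

section Newton

variable {α β : k}

theorem qle_natCast333 (n : ℕ) : QLe333 ((n : QuadraticAlgebra k α β)) 1 := by
  rw [← QuadraticAlgebra.C_natCast]
  exact qle_mono333 (qle_C333 _) (val_natCast_le_one333 n)

/-- The simplified Newton map for `z ^ l = x₀`. -/
def newtonMap333 (l : ℕ) (x₀ z : QuadraticAlgebra k α β) : QuadraticAlgebra k α β :=
  z - QuadraticAlgebra.C ((l : k)⁻¹) * (z ^ l - x₀)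

omit [Valued k (WithZero (Multiplicative ℤ))] in
theorem C_inv_mul_natCast333 {l : ℕ} (hl : (l : k) ≠ 0) :
    (QuadraticAlgebra.C ((l : k)⁻¹) : QuadraticAlgebra k α β) * (l : QuadraticAlgebra k α β)
      = 1 := by
  rw [← QuadraticAlgebra.C_natCast, ← QuadraticAlgebra.C_mul, inv_mul_cancel₀ hl,
    QuadraticAlgebra.C_one]

/-- The Newton map is a contraction of ratio `ε` on the ball `1 + {‖·‖ ≤ λ ε}`. -/
theorem newtonMap_contr333 (hα : Valued.v α ≤ 1) (hβ : Valued.v β ≤ 1) {l : ℕ}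
    (hl : (l : k) ≠ 0) {ε : Γ} (hε : ε ≤ 1) (x₀ : QuadraticAlgebra k α β)
    {z z' : QuadraticAlgebra k α β} (h : QLe333 (z - 1) (Valued.v (l : k) * ε))
    (h' : QLe333 (z' - 1) (Valued.v (l : k) * ε)) {r : Γ} (hr : QLe333 (z - z') r) :
    QLe333 (newtonMap333 l x₀ z - newtonMap333 l x₀ z') (ε * r) := by
  have hlam : Valued.v (l : k) ≠ 0 := (Valuation.ne_zero_iff _).mpr hl
  have hρ : Valued.v (l : k) * ε ≤ 1 := by
    calc Valued.v (l : k) * ε ≤ 1 * 1 := mul_le_mul' (val_natCast_le_one333 l) hε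
      _ = 1 := one_mul _
  obtain ⟨e, he, hfac⟩ := qkey333 hα hβ hρ h h' l
  have e1 : newtonMap333 l x₀ z - newtonMap333 l x₀ z'
      = -(QuadraticAlgebra.C ((l : k)⁻¹) * ((z - z') * e)) := by
    unfold newtonMap333
    have : z - QuadraticAlgebra.C ((l : k)⁻¹) * (z ^ l - x₀)
          - (z' - QuadraticAlgebra.C ((l : k)⁻¹) * (z' ^ l - x₀))
        = (z - z') - QuadraticAlgebra.C ((l : k)⁻¹) * (z ^ l - z' ^ l) := by ring
    rw [this, hfac]
    have h1 := C_inv_mul_natCast333 (α := α) (β := β) hl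
    calc z - z' - QuadraticAlgebra.C ((l : k)⁻¹) * ((z - z') * ((l : QuadraticAlgebra k α β) + e))
        = (z - z') - (QuadraticAlgebra.C ((l : k)⁻¹) * (l : QuadraticAlgebra k α β)) * (z - z')
            - QuadraticAlgebra.C ((l : k)⁻¹) * ((z - z') * e) := by ring
      _ = -(QuadraticAlgebra.C ((l : k)⁻¹) * ((z - z') * e)) := by rw [h1]; ring
  rw [e1]
  refine qle_neg333 ?_
  have h2 := qle_mul333 hα hβ (qle_C333 (α := α) (β := β) ((l : k)⁻¹)) (qle_mul333 hα hβ hr he)
  refine qle_mono333 h2 (le_of_eq ?_)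
  rw [Valuation.map_inv]
  calc (Valued.v (l : k))⁻¹ * (r * (Valued.v (l : k) * ε))
      = ((Valued.v (l : k))⁻¹ * Valued.v (l : k)) * (ε * r) := by
        simp only [mul_comm, mul_left_comm, mul_assoc]
    _ = ε * r := by rw [inv_mul_cancel₀ hlam, one_mul]

/-- The Newton sequence. -/
def newtonSeq333 (l : ℕ) (x₀ : QuadraticAlgebra k α β) : ℕ → QuadraticAlgebra k α β
  | 0 => 1
  | n + 1 => newtonMap333 l x₀ (newtonSeq333 l x₀ n)

theorem newtonSeq_bound333 (hα : Valued.v α ≤ 1) (hβ : Valued.v β ≤ 1) {l : ℕ}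
    (hl : (l : k) ≠ 0) {ε : Γ} (hε : ε ≤ 1) (x₀ : QuadraticAlgebra k α β)
    (hx₀ : QLe333 (x₀ - 1) (Valued.v (l : k) * (Valued.v (l : k) * ε))) (n : ℕ) :
    QLe333 (newtonSeq333 l x₀ n - 1) (Valued.v (l : k) * ε) ∧
      QLe333 (newtonSeq333 l x₀ (n + 1) - newtonSeq333 l x₀ n)
        (Valued.v (l : k) * ε * ε ^ n) := by
  have hlam : Valued.v (l : k) ≠ 0 := (Valuation.ne_zero_iff _).mpr hl
  induction n with
  | zero =>
    refine ⟨qball_one333 _, ?_⟩
    show QLe333 (newtonMap333 l x₀ 1 - 1) _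
    have e1 : newtonMap333 l x₀ 1 - 1 = QuadraticAlgebra.C ((l : k)⁻¹) * (x₀ - 1) := by
      unfold newtonMap333
      rw [one_pow]
      ring
    rw [e1, pow_zero, mul_one]
    have h2 := qle_mul333 hα hβ (qle_C333 (α := α) (β := β) ((l : k)⁻¹)) hx₀
    refine qle_mono333 h2 (le_of_eq ?_)
    rw [Valuation.map_inv, ← mul_assoc, inv_mul_cancel₀ hlam, one_mul]
  | succ n ih =>
    obtain ⟨ha, hb⟩ := ih
    have hεn : ε ^ n ≤ 1 := pow_le_one' hε n
    have ha' : QLe333 (newtonSeq333 l x₀ (n + 1) - 1) (Valued.v (l : k) * ε) := by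
      have e : newtonSeq333 l x₀ (n + 1) - 1
          = (newtonSeq333 l x₀ (n + 1) - newtonSeq333 l x₀ n) + (newtonSeq333 l x₀ n - 1) := by
        ring
      rw [e]
      refine qle_add333 (qle_mono333 hb ?_) ha
      calc Valued.v (l : k) * ε * ε ^ n ≤ Valued.v (l : k) * ε * 1 := mul_le_mul' le_rfl hεn
        _ = Valued.v (l : k) * ε := mul_one _
    refine ⟨ha', ?_⟩
    have hc := newtonMap_contr333 hα hβ hl hε x₀ ha' ha hb
    refine qle_mono333 hc (le_of_eq ?_)
    rw [pow_succ]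
    simp only [mul_comm, mul_left_comm, mul_assoc]

theorem exp_pow_le333 {ε : Γ} (hε : ε ≤ WithZero.exp (-1 : ℤ)) (n : ℕ) :
    ε ^ n ≤ WithZero.exp (-(n : ℤ)) := by
  induction n with
  | zero => simp
  | succ n ih =>
    rw [pow_succ]
    calc ε ^ n * ε ≤ WithZero.exp (-(n : ℤ)) * WithZero.exp (-1 : ℤ) := mul_le_mul' ih hε
      _ = WithZero.exp (-((n + 1 : ℕ) : ℤ)) := by
        rw [← WithZero.exp_add]
        congr 1
        push_cast
        ring

/-- **Existence of the `l`-th root** near `1` in the quadratic algebra. -/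
theorem exists_root333 [CompleteSpace k] (hα : Valued.v α ≤ 1) (hβ : Valued.v β ≤ 1) {l : ℕ}
    (hl : (l : k) ≠ 0) {ε : Γ} (hε : ε ≤ WithZero.exp (-1 : ℤ)) (hε0 : ε ≠ 0)
    (x₀ : QuadraticAlgebra k α β)
    (hx₀ : QLe333 (x₀ - 1) (Valued.v (l : k) * (Valued.v (l : k) * ε))) :
    ∃ z : QuadraticAlgebra k α β, QLe333 (z - 1) (Valued.v (l : k) * ε) ∧ z ^ l = x₀ := by
  have hlam : Valued.v (l : k) ≠ 0 := (Valuation.ne_zero_iff _).mpr hl
  have hlam1 : Valued.v (l : k) ≤ 1 := val_natCast_le_one333 l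
  have hε1 : ε ≤ 1 := hε.trans (by rw [← WithZero.exp_zero, WithZero.exp_le_exp]; omega)
  have hρ : Valued.v (l : k) * ε ≤ 1 := by
    calc Valued.v (l : k) * ε ≤ 1 * 1 := mul_le_mul' hlam1 hε1
      _ = 1 := one_mul _
  have hρ0 : Valued.v (l : k) * ε ≠ 0 := mul_ne_zero hlam hε0
  have hb := newtonSeq_bound333 hα hβ hl hε1 x₀ hx₀
  -- the steps are `≤ exp (-n)`
  have hstep : ∀ n, QLe333 (newtonSeq333 l x₀ (n + 1) - newtonSeq333 l x₀ n)
      (WithZero.exp (-(n : ℤ))) := by
    intro n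
    refine qle_mono333 (hb n).2 ?_
    calc Valued.v (l : k) * ε * ε ^ n ≤ 1 * WithZero.exp (-(n : ℤ)) :=
          mul_le_mul' hρ (exp_pow_le333 hε n)
      _ = WithZero.exp (-(n : ℤ)) := one_mul _
  obtain ⟨Lr, hLr⟩ := exists_lim333 (fun n => (newtonSeq333 l x₀ n).re) (fun n => by
    have := (hstep n).1
    rwa [QuadraticAlgebra.re_sub] at this)
  obtain ⟨Li, hLi⟩ := exists_lim333 (fun n => (newtonSeq333 l x₀ n).im) (fun n => by
    have := (hstep n).2
    rwa [QuadraticAlgebra.im_sub] at this)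
  have hlim : ∀ n, QLe333 ((⟨Lr, Li⟩ : QuadraticAlgebra k α β) - newtonSeq333 l x₀ n)
      (WithZero.exp (-(n : ℤ))) := fun n => ⟨hLr n, hLi n⟩
  -- the limit is in the ball
  have hball : QLe333 ((⟨Lr, Li⟩ : QuadraticAlgebra k α β) - 1) (Valued.v (l : k) * ε) := by
    set n₀ : ℕ := (-WithZero.log (Valued.v (l : k) * ε)).toNat with hn₀
    have e : (⟨Lr, Li⟩ : QuadraticAlgebra k α β) - 1
        = ((⟨Lr, Li⟩ : QuadraticAlgebra k α β) - newtonSeq333 l x₀ n₀)
          + (newtonSeq333 l x₀ n₀ - 1) := by ring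
    rw [e]
    refine qle_add333 (qle_mono333 (hlim n₀) ?_) (hb n₀).1
    rw [← WithZero.le_log_iff_exp_le hρ0]
    omega
  refine ⟨⟨Lr, Li⟩, hball, ?_⟩
  -- `z ^ l - x₀` is arbitrarily small
  have hsmall : ∀ n : ℕ, QLe333 ((⟨Lr, Li⟩ : QuadraticAlgebra k α β) ^ l - x₀)
      (WithZero.exp (-(n : ℤ))) := by
    intro n
    obtain ⟨e, he, hfac⟩ := qkey333 hα hβ hρ hball (hb n).1 l
    have e1 : (⟨Lr, Li⟩ : QuadraticAlgebra k α β) ^ l - x₀
        = ((⟨Lr, Li⟩ : QuadraticAlgebra k α β) ^ l - newtonSeq333 l x₀ n ^ l)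
          + (newtonSeq333 l x₀ n ^ l - x₀) := by ring
    rw [e1, hfac]
    refine qle_add333 ?_ ?_
    · have h1 : QLe333 ((l : QuadraticAlgebra k α β) + e) 1 :=
        qle_add333 (qle_natCast333 l) (qle_mono333 he hρ)
      have h2 := qle_mul333 hα hβ (hlim n) h1
      rwa [mul_one] at h2
    · have e2 : newtonSeq333 l x₀ n ^ l - x₀
          = -((l : QuadraticAlgebra k α β)
              * (newtonSeq333 l x₀ (n + 1) - newtonSeq333 l x₀ n)) := by
        show _ = -((l : QuadraticAlgebra k α β)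
              * (newtonMap333 l x₀ (newtonSeq333 l x₀ n) - newtonSeq333 l x₀ n))
        unfold newtonMap333
        have h1 := C_inv_mul_natCast333 (α := α) (β := β) hl
        calc newtonSeq333 l x₀ n ^ l - x₀
            = (QuadraticAlgebra.C ((l : k)⁻¹) * (l : QuadraticAlgebra k α β))
                * (newtonSeq333 l x₀ n ^ l - x₀) := by rw [h1, one_mul]
          _ = _ := by ring
      rw [e2]
      refine qle_neg333 ?_
      have h2 := qle_mul333 hα hβ (qle_natCast333 (α := α) (β := β) l) (hstep n)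
      rwa [one_mul] at h2
  have hre := eq_zero_of_forall_le333 _ (fun n => (hsmall n).1)
  have him := eq_zero_of_forall_le333 _ (fun n => (hsmall n).2)
  have : (⟨Lr, Li⟩ : QuadraticAlgebra k α β) ^ l - x₀ = 0 := QuadraticAlgebra.ext hre him
  exact sub_eq_zero.mp this

end Newton

/-! ## Dependence on the parameters -/

section Lip

variable {α β α' β' : k}

/-- **Lipschitz dependence of the root on the parameters.** -/
theorem root_near333 (hα : Valued.v α ≤ 1) (hβ : Valued.v β ≤ 1)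
    (hα' : Valued.v α' ≤ 1) (hβ' : Valued.v β' ≤ 1) {η : Γ}
    (hαη : Valued.v (α - α') ≤ η) (hβη : Valued.v (β - β') ≤ η) {l : ℕ}
    (hl : (l : k) ≠ 0) {ε : Γ} (hε : ε ≤ WithZero.exp (-1 : ℤ))
    {z : QuadraticAlgebra k α β} {z' : QuadraticAlgebra k α' β'}
    (hz : QLe333 (z - 1) (Valued.v (l : k) * ε)) (hz' : QLe333 (z' - 1) (Valued.v (l : k) * ε))
    (hpow : qcopy333 α' β' (z ^ l) = z' ^ l) :
    QNear333 z z' ((Valued.v (l : k))⁻¹ * η) := by
  have hlam : Valued.v (l : k) ≠ 0 := (Valuation.ne_zero_iff _).mpr hl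
  have hlam1 : Valued.v (l : k) ≤ 1 := val_natCast_le_one333 l
  have hεlt : ε < 1 := lt_of_le_of_lt hε (by
    rw [← WithZero.exp_zero, WithZero.exp_lt_exp]; omega)
  have hρ : Valued.v (l : k) * ε ≤ 1 := by
    calc Valued.v (l : k) * ε ≤ 1 * 1 := mul_le_mul' hlam1 hεlt.le
      _ = 1 := one_mul _
  -- the copy of `z`
  have hzt : QLe333 (qcopy333 α' β' z - 1) (Valued.v (l : k) * ε) := hz
  have hz1 : QLe333 z 1 := qle_of_ball333 hρ hz
  have hnear := qnear_pow333 hα hβ hα' hβ' hαη hβη hz1 l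
  -- `Δ = z̃ ^ l - z' ^ l` is small
  have hΔ : QLe333 ((qcopy333 α' β' z) ^ l - z' ^ l) η := by
    rw [← hpow]
    refine ⟨?_, ?_⟩
    · have := hnear.1
      rw [← Valuation.map_neg] at this
      rw [QuadraticAlgebra.re_sub]
      show Valued.v (((qcopy333 α' β' z) ^ l).re - (z ^ l).re) ≤ η
      rwa [neg_sub] at this
    · have := hnear.2
      rw [← Valuation.map_neg] at this
      rw [QuadraticAlgebra.im_sub]
      show Valued.v (((qcopy333 α' β' z) ^ l).im - (z ^ l).im) ≤ η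
      rwa [neg_sub] at this
  obtain ⟨e, he, hfac⟩ := qkey333 hα' hβ' hρ hzt hz' l
  set u : QuadraticAlgebra k α' β' := qcopy333 α' β' z - z' with hu
  set r : Γ := max (Valued.v u.re) (Valued.v u.im) with hr
  have hur : QLe333 u r := ⟨le_max_left _ _, le_max_right _ _⟩
  have hlu : (l : QuadraticAlgebra k α' β') * u = ((qcopy333 α' β' z) ^ l - z' ^ l) - u * e := by
    rw [hfac]; ring
  have hlu_le : QLe333 ((l : QuadraticAlgebra k α' β') * u)
      (max η (r * (Valued.v (l : k) * ε))) := by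
    rw [hlu]
    exact qle_sub333 (qle_mono333 hΔ (le_max_left _ _))
      (qle_mono333 (qle_mul333 hα' hβ' hur he) (le_max_right _ _))
  have hre : ((l : QuadraticAlgebra k α' β') * u).re = (l : k) * u.re := by
    rw [← QuadraticAlgebra.C_natCast, QuadraticAlgebra.C_mul_eq_smul, QuadraticAlgebra.re_smul,
      smul_eq_mul]
  have him : ((l : QuadraticAlgebra k α' β') * u).im = (l : k) * u.im := by
    rw [← QuadraticAlgebra.C_natCast, QuadraticAlgebra.C_mul_eq_smul, QuadraticAlgebra.im_smul,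
      smul_eq_mul]
  have hmain : Valued.v (l : k) * r ≤ max η (r * (Valued.v (l : k) * ε)) := by
    have h1 := hlu_le.1
    have h2 := hlu_le.2
    rw [hre, Valuation.map_mul] at h1
    rw [him, Valuation.map_mul] at h2
    rw [hr, mul_max]
    exact max_le h1 h2
  have hr_le : r ≤ (Valued.v (l : k))⁻¹ * η := by
    rcases le_max_iff.mp hmain with h | h
    · calc r = (Valued.v (l : k))⁻¹ * (Valued.v (l : k) * r) := by
            rw [← mul_assoc, inv_mul_cancel₀ hlam, one_mul]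
        _ ≤ (Valued.v (l : k))⁻¹ * η := mul_le_mul' le_rfl h
    · by_cases hr0 : r = 0
      · rw [hr0]; exact zero_le
      · exfalso
        have h3 : Valued.v (l : k) * r * 1 ≤ Valued.v (l : k) * r * ε := by
          rw [mul_one]
          calc Valued.v (l : k) * r ≤ r * (Valued.v (l : k) * ε) := h
            _ = Valued.v (l : k) * r * ε := by
              simp only [mul_comm, mul_assoc]
        have h4 : (1 : Γ) ≤ ε :=
          le_of_mul_le_mul_left h3 (zero_lt_iff.mpr (mul_ne_zero hlam hr0))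
        exact absurd hεlt (not_lt.mpr h4)
  refine ⟨?_, ?_⟩
  · have : Valued.v (z.re - z'.re) = Valued.v u.re := by
      rw [hu, QuadraticAlgebra.re_sub]; rfl
    rw [this]
    exact (le_max_left _ _).trans hr_le
  · have : Valued.v (z.im - z'.im) = Valued.v u.im := by
      rw [hu, QuadraticAlgebra.im_sub]; rfl
    rw [this]
    exact (le_max_right _ _).trans hr_le

end Lip

end Fermat.Agent.LT.T6.H333

end
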