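import Mathlib

/-!
# Row LT, tower T6, leaf T6.18g3.1a `H820.RootFnC820` (helper333) -- part 1: the quadratic algebra

OFF-MAIN.  Mathlib only.  `k` is a field with a valuation in `ℤᵐ⁰`, `A = QuadraticAlgebra k α β`
(`ω² = α + β ω`) with `|α|, |β| ≤ 1`.  `QLe333 u r` says that both coordinates of `u` have
valuation `≤ r` (the sup-norm of `u` is `≤ r`); it is ultrametric and submultiplicative.

* `qkey333`: for `z, z'` in the ball `1 + {‖·‖ ≤ ρ}`, `ρ ≤ 1`:
  `z ^ l - z' ^ l = (z - z') * (l + e)` with `‖e‖ ≤ ρ`.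
* `qnear_pow333`: the coordinates of `z ^ n` computed in `QuadraticAlgebra k α β` and in
  `QuadraticAlgebra k α' β'` differ by at most `max |α - α'| |β - β'|` (for `‖z‖ ≤ 1`).
-/

set_option autoImplicit false

noncomputable section

namespace Fermat.Agent.LT.T6.H333

variable {k : Type} [Field k] [Valued k (WithZero (Multiplicative ℤ))]

local notation "Γ" => WithZero (Multiplicative ℤ)

/-- Both coordinates of `u` have valuation `≤ r`. -/
def QLe333 {α β : k} (u : QuadraticAlgebra k α β) (r : Γ) : Prop :=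
  Valued.v u.re ≤ r ∧ Valued.v u.im ≤ r

section Basic

variable {α β : k}

theorem qle_zero333 (r : Γ) : QLe333 (0 : QuadraticAlgebra k α β) r := by
  refine ⟨?_, ?_⟩
  · show Valued.v (0 : k) ≤ r
    rw [Valuation.map_zero]; exact zero_le
  · show Valued.v (0 : k) ≤ r
    rw [Valuation.map_zero]; exact zero_le

theorem qle_mono333 {u : QuadraticAlgebra k α β} {r r' : Γ} (h : QLe333 u r) (hr : r ≤ r') :
    QLe333 u r' :=
  ⟨h.1.trans hr, h.2.trans hr⟩

theorem qle_add333 {u u' : QuadraticAlgebra k α β} {r : Γ} (h : QLe333 u r) (h' : QLe333 u' r) :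
    QLe333 (u + u') r := by
  refine ⟨?_, ?_⟩
  · rw [QuadraticAlgebra.re_add]; exact Valuation.map_add_le _ h.1 h'.1
  · rw [QuadraticAlgebra.im_add]; exact Valuation.map_add_le _ h.2 h'.2

theorem qle_neg333 {u : QuadraticAlgebra k α β} {r : Γ} (h : QLe333 u r) : QLe333 (-u) r := by
  refine ⟨?_, ?_⟩
  · rw [QuadraticAlgebra.re_neg, Valuation.map_neg]; exact h.1
  · rw [QuadraticAlgebra.im_neg, Valuation.map_neg]; exact h.2

theorem qle_sub333 {u u' : QuadraticAlgebra k α β} {r : Γ} (h : QLe333 u r) (h' : QLe333 u' r) :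
    QLe333 (u - u') r := by
  rw [sub_eq_add_neg]
  exact qle_add333 h (qle_neg333 h')

theorem qle_sum333 {ι : Type*} (s : Finset ι) (f : ι → QuadraticAlgebra k α β) {r : Γ}
    (h : ∀ i ∈ s, QLe333 (f i) r) : QLe333 (∑ i ∈ s, f i) r := by
  classical
  induction s using Finset.induction_on with
  | empty => simpa using qle_zero333 r
  | insert a s ha ih =>
    rw [Finset.sum_insert ha]
    exact qle_add333 (h a (Finset.mem_insert_self a s))
      (ih fun i hi => h i (Finset.mem_insert_of_mem hi))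

theorem qle_one333 : QLe333 (1 : QuadraticAlgebra k α β) 1 := by
  refine ⟨?_, ?_⟩
  · show Valued.v (1 : k) ≤ 1
    rw [Valuation.map_one]
  · show Valued.v (0 : k) ≤ 1
    rw [Valuation.map_zero]; exact zero_le

theorem qle_C333 (x : k) :
    QLe333 (QuadraticAlgebra.C x : QuadraticAlgebra k α β) (Valued.v x) := by
  refine ⟨?_, ?_⟩
  · show Valued.v x ≤ Valued.v x
    exact le_rfl
  · show Valued.v (0 : k) ≤ Valued.v x
    rw [Valuation.map_zero]; exact zero_le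

theorem qle_mul333 (hα : Valued.v α ≤ 1) (hβ : Valued.v β ≤ 1) {u u' : QuadraticAlgebra k α β}
    {r r' : Γ} (h : QLe333 u r) (h' : QLe333 u' r') : QLe333 (u * u') (r * r') := by
  have h1 : ∀ x y : k, Valued.v x ≤ r → Valued.v y ≤ r' → Valued.v (x * y) ≤ r * r' := by
    intro x y hx hy
    rw [Valuation.map_mul]
    exact mul_le_mul' hx hy
  have h2 : ∀ c x y : k, Valued.v c ≤ 1 → Valued.v x ≤ r → Valued.v y ≤ r' →
      Valued.v (c * x * y) ≤ r * r' := by
    intro c x y hc hx hy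
    rw [mul_assoc, Valuation.map_mul]
    calc Valued.v c * Valued.v (x * y) ≤ 1 * (r * r') := mul_le_mul' hc (h1 x y hx hy)
      _ = r * r' := one_mul _
  refine ⟨?_, ?_⟩
  · rw [QuadraticAlgebra.re_mul]
    exact Valuation.map_add_le _ (h1 _ _ h.1 h'.1) (h2 _ _ _ hα h.2 h'.2)
  · rw [QuadraticAlgebra.im_mul]
    exact Valuation.map_add_le _
      (Valuation.map_add_le _ (h1 _ _ h.1 h'.2) (h1 _ _ h.2 h'.1)) (h2 _ _ _ hβ h.2 h'.2)

theorem qle_pow333 (hα : Valued.v α ≤ 1) (hβ : Valued.v β ≤ 1) {u : QuadraticAlgebra k α β}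
    (h : QLe333 u 1) (n : ℕ) : QLe333 (u ^ n) 1 := by
  induction n with
  | zero => rw [pow_zero]; exact qle_one333
  | succ n ih =>
    rw [pow_succ]
    have := qle_mul333 hα hβ ih h
    rwa [one_mul] at this

/-- `‖u‖ ≤ 1` for `u` in the ball `1 + {‖·‖ ≤ ρ}`, `ρ ≤ 1`. -/
theorem qle_of_ball333 {u : QuadraticAlgebra k α β} {ρ : Γ} (hρ : ρ ≤ 1)
    (h : QLe333 (u - 1) ρ) : QLe333 u 1 := by
  have : u = (u - 1) + 1 := by ring
  rw [this]
  exact qle_add333 (qle_mono333 h hρ) qle_one333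

/-- The ball `1 + {‖·‖ ≤ ρ}`, `ρ ≤ 1`, is closed under multiplication. -/
theorem qball_mul333 (hα : Valued.v α ≤ 1) (hβ : Valued.v β ≤ 1) {u u' : QuadraticAlgebra k α β}
    {ρ : Γ} (hρ : ρ ≤ 1) (h : QLe333 (u - 1) ρ) (h' : QLe333 (u' - 1) ρ) :
    QLe333 (u * u' - 1) ρ := by
  have e : u * u' - 1 = (u - 1) * u' + (u' - 1) := by ring
  rw [e]
  refine qle_add333 ?_ h'
  have := qle_mul333 hα hβ h (qle_of_ball333 hρ h')
  rwa [mul_one] at this

theorem qball_one333 (ρ : Γ) : QLe333 ((1 : QuadraticAlgebra k α β) - 1) ρ := by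
  rw [sub_self]; exact qle_zero333 ρ

theorem qball_pow333 (hα : Valued.v α ≤ 1) (hβ : Valued.v β ≤ 1) {u : QuadraticAlgebra k α β}
    {ρ : Γ} (hρ : ρ ≤ 1) (h : QLe333 (u - 1) ρ) (n : ℕ) : QLe333 (u ^ n - 1) ρ := by
  induction n with
  | zero => rw [pow_zero]; exact qball_one333 ρ
  | succ n ih => rw [pow_succ]; exact qball_mul333 hα hβ hρ ih h

/-- **The key factorisation**: `z ^ l - z' ^ l = (z - z') * (l + e)`, `‖e‖ ≤ ρ`. -/
theorem qkey333 (hα : Valued.v α ≤ 1) (hβ : Valued.v β ≤ 1) {z z' : QuadraticAlgebra k α β}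
    {ρ : Γ} (hρ : ρ ≤ 1) (h : QLe333 (z - 1) ρ) (h' : QLe333 (z' - 1) ρ) (l : ℕ) :
    ∃ e : QuadraticAlgebra k α β, QLe333 e ρ ∧
      z ^ l - z' ^ l = (z - z') * ((l : QuadraticAlgebra k α β) + e) := by
  refine ⟨∑ i ∈ Finset.range l, (z ^ i * z' ^ (l - 1 - i) - 1), ?_, ?_⟩
  · refine qle_sum333 _ _ fun i _ => ?_
    exact qball_mul333 hα hβ hρ (qball_pow333 hα hβ hρ h i) (qball_pow333 hα hβ hρ h' _)
  · rw [Finset.sum_sub_distrib, Finset.sum_const, Finset.card_range, nsmul_eq_mul, mul_one,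
      add_sub_cancel, mul_comm, geom_sum₂_mul]

end Basic

/-! ## Comparison of two quadratic algebras -/

section Near

variable {α β α' β' : k}

/-- The coordinates of `u` and `u'` (in two different quadratic algebras) differ by `≤ η`. -/
def QNear333 (u : QuadraticAlgebra k α β) (u' : QuadraticAlgebra k α' β') (η : Γ) : Prop :=
  Valued.v (u.re - u'.re) ≤ η ∧ Valued.v (u.im - u'.im) ≤ η

theorem qnear_mul333 (hα' : Valued.v α' ≤ 1) (hβ' : Valued.v β' ≤ 1) {η : Γ}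
    (hαη : Valued.v (α - α') ≤ η) (hβη : Valued.v (β - β') ≤ η)
    {u₁ u₂ : QuadraticAlgebra k α β} {u₁' u₂' : QuadraticAlgebra k α' β'}
    (h₁ : QLe333 u₁ 1) (h₂ : QLe333 u₂ 1) (h₁' : QLe333 u₁' 1) (h₂' : QLe333 u₂' 1)
    (n₁ : QNear333 u₁ u₁' η) (n₂ : QNear333 u₂ u₂' η) : QNear333 (u₁ * u₂) (u₁' * u₂') η := by
  -- `x y - x' y' = (x - x') y + x' (y - y')`
  have h1 : ∀ x y x' y' : k, Valued.v y ≤ 1 → Valued.v x' ≤ 1 → Valued.v (x - x') ≤ η →
      Valued.v (y - y') ≤ η → Valued.v (x * y - x' * y') ≤ η := by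
    intro x y x' y' hy hx' hx hyy
    have e : x * y - x' * y' = (x - x') * y + x' * (y - y') := by ring
    rw [e]
    refine Valuation.map_add_le _ ?_ ?_
    · rw [Valuation.map_mul]
      calc Valued.v (x - x') * Valued.v y ≤ η * 1 := mul_le_mul' hx hy
        _ = η := mul_one _
    · rw [Valuation.map_mul]
      calc Valued.v x' * Valued.v (y - y') ≤ 1 * η := mul_le_mul' hx' hyy
        _ = η := one_mul _
  have hm : ∀ x y : k, Valued.v x ≤ 1 → Valued.v y ≤ 1 → Valued.v (x * y) ≤ 1 := by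
    intro x y hx hy
    rw [Valuation.map_mul]
    calc Valued.v x * Valued.v y ≤ 1 * 1 := mul_le_mul' hx hy
      _ = 1 := one_mul _
  have h2 : ∀ c c' x y x' y' : k, Valued.v c' ≤ 1 → Valued.v (c - c') ≤ η →
      Valued.v x ≤ 1 → Valued.v y ≤ 1 → Valued.v x' ≤ 1 → Valued.v y' ≤ 1 →
      Valued.v (x - x') ≤ η → Valued.v (y - y') ≤ η →
      Valued.v (c * x * y - c' * x' * y') ≤ η := by
    intro c c' x y x' y' hc' hc hx hy hx' hy' hxx hyy
    have e : c * x * y - c' * x' * y' = (c - c') * (x * y) + c' * (x * y - x' * y') := by ring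
    rw [e]
    refine Valuation.map_add_le _ ?_ ?_
    · rw [Valuation.map_mul]
      calc Valued.v (c - c') * Valued.v (x * y) ≤ η * 1 := mul_le_mul' hc (hm x y hx hy)
        _ = η := mul_one _
    · rw [Valuation.map_mul]
      calc Valued.v c' * Valued.v (x * y - x' * y') ≤ 1 * η :=
            mul_le_mul' hc' (h1 x y x' y' hy hx' hxx hyy)
        _ = η := one_mul _
  refine ⟨?_, ?_⟩
  · rw [QuadraticAlgebra.re_mul, QuadraticAlgebra.re_mul]
    have e : u₁.re * u₂.re + α * u₁.im * u₂.im - (u₁'.re * u₂'.re + α' * u₁'.im * u₂'.im)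
        = (u₁.re * u₂.re - u₁'.re * u₂'.re)
          + (α * u₁.im * u₂.im - α' * u₁'.im * u₂'.im) := by ring
    rw [e]
    exact Valuation.map_add_le _ (h1 _ _ _ _ h₂.1 h₁'.1 n₁.1 n₂.1)
      (h2 _ _ _ _ _ _ hα' hαη h₁.2 h₂.2 h₁'.2 h₂'.2 n₁.2 n₂.2)
  · rw [QuadraticAlgebra.im_mul, QuadraticAlgebra.im_mul]
    have e : u₁.re * u₂.im + u₁.im * u₂.re + β * u₁.im * u₂.im
          - (u₁'.re * u₂'.im + u₁'.im * u₂'.re + β' * u₁'.im * u₂'.im)
        = ((u₁.re * u₂.im - u₁'.re * u₂'.im) + (u₁.im * u₂.re - u₁'.im * u₂'.re))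
          + (β * u₁.im * u₂.im - β' * u₁'.im * u₂'.im) := by ring
    rw [e]
    exact Valuation.map_add_le _
      (Valuation.map_add_le _ (h1 _ _ _ _ h₂.2 h₁'.1 n₁.1 n₂.2)
        (h1 _ _ _ _ h₂.1 h₁'.2 n₁.2 n₂.1))
      (h2 _ _ _ _ _ _ hβ' hβη h₁.2 h₂.2 h₁'.2 h₂'.2 n₁.2 n₂.2)

/-- The same coordinates, in another quadratic algebra. -/
def qcopy333 (α' β' : k) (u : QuadraticAlgebra k α β) : QuadraticAlgebra k α' β' :=
  ⟨u.re, u.im⟩

theorem qle_copy333 {u : QuadraticAlgebra k α β} {r : Γ} (h : QLe333 u r) :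
    QLe333 (qcopy333 α' β' u) r := h

theorem qnear_pow333 (hα : Valued.v α ≤ 1) (hβ : Valued.v β ≤ 1)
    (hα' : Valued.v α' ≤ 1) (hβ' : Valued.v β' ≤ 1) {η : Γ}
    (hαη : Valued.v (α - α') ≤ η) (hβη : Valued.v (β - β') ≤ η)
    {u : QuadraticAlgebra k α β} (h : QLe333 u 1) (n : ℕ) :
    QNear333 (u ^ n) ((qcopy333 α' β' u) ^ n) η := by
  induction n with
  | zero =>
    rw [pow_zero, pow_zero]
    refine ⟨?_, ?_⟩
    · show Valued.v ((1 : k) - 1) ≤ η
      rw [sub_self, Valuation.map_zero]; exact zero_le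
    · show Valued.v ((0 : k) - 0) ≤ η
      rw [sub_self, Valuation.map_zero]; exact zero_le
  | succ n ih =>
    rw [pow_succ, pow_succ]
    refine qnear_mul333 hα' hβ' hαη hβη (qle_pow333 hα hβ h n) h
      (qle_pow333 hα' hβ' (qle_copy333 h) n) (qle_copy333 h) ih ?_
    refine ⟨?_, ?_⟩
    · show Valued.v (u.re - u.re) ≤ η
      rw [sub_self, Valuation.map_zero]; exact zero_le
    · show Valued.v (u.im - u.im) ≤ η
      rw [sub_self, Valuation.map_zero]; exact zero_le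

end Near

end Fermat.Agent.LT.T6.H333

end
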