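import Fermat.Agent.LT.T6.H820.PowSpec
import Fermat.Agent.LT.T6.H333.Newton

/-!
# Row LT, tower T6, leaf T6.18g3.1a `H820.RootFnC820` (helper333)

OFF-MAIN.  Proves `H820.RootFnC820` VERBATIM against `LT/T6/H820/PowSpec.lean`
(helper820@553f9c171, sha256 601c508e1707).

## Construction

`λ = |l| = exp (-m)`, `s = max N₀ 1`, `ε = exp (-s)`, `c = l² ϖ^s`, `|c| = exp (-K)`, `K = 2m + s`,
`N₁ = 2K`, `C = 3K + m`.  For `(t, d)` in the ball put `τ = t - 2`, `δ = d - t + 1`,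
`β = τ / c`, `α = -δ / c²` (`|α|, |β| ≤ 1`) and let `A = QuadraticAlgebra k α β`, `ω² = α + β ω`.
For a matrix `M` of trace `t` and determinant `d` the element `N = (M - 1) / c` satisfies
`N² = α + β N` (Cayley--Hamilton), so `ω ↦ N` is an algebra homomorphism `A → M₂(k)` with
`1 + c ω ↦ M`.  The simplified Newton iteration in `A` (`Newton.lean`, a contraction of ratio `ε`
on the ball `1 + {‖·‖ ≤ λ ε}`) gives `z = x + y ω` with `z ^ l = 1 + c ω`, and
`a = y / c`, `b = x - y / c`.  The Lipschitz bound is `root_near333`.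
-/

set_option autoImplicit false
set_option linter.unnecessarySeqFocus false

open scoped Matrix

noncomputable section

namespace Fermat.Agent.LT.T6.H333

open Fermat.Agent.LT.T6 Fermat.Agent.LT.T6.H783 Fermat.Agent.LT.T6.H820

/-! ## Matrices -/

section Mat

variable {k : Type} [Field k]

theorem cayley333 (M : Matrix (Fin 2) (Fin 2) k) :
    M * M = M.trace • M - M.det • (1 : Matrix (Fin 2) (Fin 2) k) := by
  ext i j
  fin_cases i <;> fin_cases j <;>
    simp [Matrix.mul_apply, Fin.sum_univ_two, Matrix.trace_fin_two, Matrix.det_fin_two] <;> ring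

theorem scaled333 (M : Matrix (Fin 2) (Fin 2) k) (t d c : k) (ht : M.trace = t)
    (hd : M.det = d) (hc : c ≠ 0) :
    (c⁻¹ • (M - 1)) * (c⁻¹ • (M - 1))
      = (-((d - t + 1) / c ^ 2)) • (1 : Matrix (Fin 2) (Fin 2) k)
        + ((t - 2) / c) • (c⁻¹ • (M - 1)) := by
  have h1 : (M - 1) * (M - 1)
      = (t - 2) • (M - 1) - (d - t + 1) • (1 : Matrix (Fin 2) (Fin 2) k) := by
    have e : (M - 1) * (M - 1) = M * M - (2 : k) • M + 1 := by
      rw [two_smul]; noncomm_ring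
    rw [e, cayley333, ht, hd]
    module
  rw [smul_mul_smul_comm, h1]
  have hc2 : c ^ 2 ≠ 0 := pow_ne_zero 2 hc
  match_scalars <;> field_simp <;> ring

theorem matroot333 {α β : k} (M : Matrix (Fin 2) (Fin 2) k) (c : k)
    (hN : (c⁻¹ • (M - 1)) * (c⁻¹ • (M - 1))
      = α • (1 : Matrix (Fin 2) (Fin 2) k) + β • (c⁻¹ • (M - 1))) (hc : c ≠ 0)
    (z : QuadraticAlgebra k α β) (l : ℕ) (hz : z ^ l = ⟨1, c⟩) :
    ((z.im / c) • M + (z.re - z.im / c) • (1 : Matrix (Fin 2) (Fin 2) k)) ^ l = M := by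
  have h1 : QuadraticAlgebra.lift ⟨c⁻¹ • (M - 1), hN⟩ z
      = (z.im / c) • M + (z.re - z.im / c) • (1 : Matrix (Fin 2) (Fin 2) k) := by
    show z.re • (1 : Matrix (Fin 2) (Fin 2) k) + z.im • (c⁻¹ • (M - 1)) = _
    match_scalars <;> field_simp <;> ring
  have h2 : QuadraticAlgebra.lift ⟨c⁻¹ • (M - 1), hN⟩ (⟨1, c⟩ : QuadraticAlgebra k α β)
      = M := by
    show (1 : k) • (1 : Matrix (Fin 2) (Fin 2) k) + c • (c⁻¹ • (M - 1)) = _
    rw [smul_smul, mul_inv_cancel₀ hc, one_smul, one_smul]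
    abel
  rw [← h1, ← map_pow, hz, h2]

end Mat

/-! ## Valuations and `exp` -/

section Val

variable {k : Type} [Field k] [Valued k Γ₀]

theorem vmul333 {x y : k} {a b : ℤ} (hx : Valued.v x ≤ WithZero.exp a)
    (hy : Valued.v y ≤ WithZero.exp b) : Valued.v (x * y) ≤ WithZero.exp (a + b) := by
  rw [Valuation.map_mul, WithZero.exp_add]
  exact mul_le_mul' hx hy

theorem vdiv333 {x c : k} {a b : ℤ} (hx : Valued.v x ≤ WithZero.exp a)
    (hc : Valued.v c = WithZero.exp b) : Valued.v (x / c) ≤ WithZero.exp (a - b) := by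
  rw [map_div₀, hc, WithZero.exp_sub, div_eq_mul_inv, div_eq_mul_inv]
  exact mul_le_mul' hx le_rfl

theorem vle333 {x : k} {a b : ℤ} (hx : Valued.v x ≤ WithZero.exp a) (hab : a ≤ b) :
    Valued.v x ≤ WithZero.exp b :=
  hx.trans (WithZero.exp_le_exp.mpr hab)

theorem vdiv_le333 {x c : k} {b : ℤ} {η : Γ₀} (hx : Valued.v x ≤ η)
    (hc : Valued.v c = WithZero.exp (-b)) : Valued.v (x / c) ≤ WithZero.exp b * η := by
  rw [map_div₀, hc, div_eq_mul_inv, ← WithZero.exp_neg, neg_neg, mul_comm]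
  exact mul_le_mul' le_rfl hx

end Val

/-! ## The root functions -/

section Fn

variable {k : Type} [Field k] [Valued k Γ₀]

/-- The parameter `α = -δ / c²` of the quadratic algebra at `(t, d)`. -/
def qα333 (c t d : k) : k := -((d - t + 1) / c ^ 2)

/-- The parameter `β = τ / c` of the quadratic algebra at `(t, d)`. -/
def qβ333 (c t _d : k) : k := (t - 2) / c

/-- `z` is an `l`-th root of `1 + c ω` in the ball of radius `ρ` around `1`. -/
def IsRoot333 (l : ℕ) (c : k) (ρ : Γ₀) (t d : k)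
    (z : QuadraticAlgebra k (qα333 c t d) (qβ333 c t d)) : Prop :=
  QLe333 (z - 1) ρ ∧ z ^ l = ⟨1, c⟩

open Classical in
/-- The coordinates of a chosen root (`(0, 0)` if there is none). -/
def rootCoord333 (l : ℕ) (c : k) (ρ : Γ₀) (t d : k) : k × k :=
  if h : ∃ z : QuadraticAlgebra k (qα333 c t d) (qβ333 c t d), IsRoot333 l c ρ t d z then
    ((Classical.choose h).re, (Classical.choose h).im)
  else (0, 0)

theorem rootCoord_spec333 (l : ℕ) (c : k) (ρ : Γ₀) (t d : k)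
    (h : ∃ z : QuadraticAlgebra k (qα333 c t d) (qβ333 c t d), IsRoot333 l c ρ t d z) :
    IsRoot333 l c ρ t d ⟨(rootCoord333 l c ρ t d).1, (rootCoord333 l c ρ t d).2⟩ := by
  unfold rootCoord333
  rw [dif_pos h]
  exact Classical.choose_spec h

/-- `a = y / c`. -/
def rootA333 (l : ℕ) (c : k) (ρ : Γ₀) (t d : k) : k := (rootCoord333 l c ρ t d).2 / c

/-- `b = x - y / c`. -/
def rootB333 (l : ℕ) (c : k) (ρ : Γ₀) (t d : k) : k :=
  (rootCoord333 l c ρ t d).1 - (rootCoord333 l c ρ t d).2 / c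

end Fn

/-! ## The estimates at one point -/

section Point

variable {k : Type} [Field k] [Valued k Γ₀]

theorem val_two_le333 : Valued.v (2 : k) ≤ WithZero.exp (0 : ℤ) := by
  have := val_natCast_le_one333 (k := k) 2
  rw [WithZero.exp_zero]
  exact_mod_cast this

theorem val_delta_le333 {t d : k} {K : ℤ}
    (ht : Valued.v (t - 2) ≤ WithZero.exp (-(2 * K)))
    (hd : Valued.v (d - 1) ≤ WithZero.exp (-(2 * K))) :
    Valued.v (d - t + 1) ≤ WithZero.exp (-(2 * K)) := by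
  have e : d - t + 1 = (d - 1) - (t - 2) := by ring
  rw [e]
  exact Valuation.map_sub_le _ hd ht

theorem val_sq333 {c : k} {K : ℤ} (hc : Valued.v c = WithZero.exp (-K)) :
    Valued.v (c ^ 2) = WithZero.exp (-(2 * K)) := by
  rw [map_pow, hc, pow_two, ← WithZero.exp_add]
  congr 1
  ring

theorem param_le333 {c t d : k} {K : ℤ} (hK : 0 ≤ K) (hc : Valued.v c = WithZero.exp (-K))
    (ht : Valued.v (t - 2) ≤ WithZero.exp (-(2 * K)))
    (hd : Valued.v (d - 1) ≤ WithZero.exp (-(2 * K))) :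
    Valued.v (qα333 c t d) ≤ 1 ∧ Valued.v (qβ333 c t d) ≤ 1 := by
  refine ⟨?_, ?_⟩
  · unfold qα333
    rw [Valuation.map_neg, ← WithZero.exp_zero]
    exact vle333 (vdiv333 (val_delta_le333 ht hd) (val_sq333 hc)) (by omega)
  · unfold qβ333
    rw [← WithZero.exp_zero]
    exact vle333 (vdiv333 ht hc) (by omega)

theorem exists_isRoot333 [CompleteSpace k] {l : ℕ} (hl : (l : k) ≠ 0) {m K : ℤ} {s : ℕ}
    (hs : 1 ≤ s) (hm : Valued.v (l : k) = WithZero.exp (-m)) (hKdef : K = 2 * m + s)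
    (hK : 0 ≤ K) {c t d : k} (hc : Valued.v c = WithZero.exp (-K))
    (ht : Valued.v (t - 2) ≤ WithZero.exp (-(2 * K)))
    (hd : Valued.v (d - 1) ≤ WithZero.exp (-(2 * K))) :
    ∃ z : QuadraticAlgebra k (qα333 c t d) (qβ333 c t d),
      IsRoot333 l c (Valued.v (l : k) * WithZero.exp (-(s : ℤ))) t d z := by
  obtain ⟨hα, hβ⟩ := param_le333 hK hc ht hd
  refine exists_root333 hα hβ hl (ε := WithZero.exp (-(s : ℤ))) ?_ WithZero.exp_ne_zero
    ⟨1, c⟩ ?_
  · rw [WithZero.exp_le_exp]; omega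
  · refine ⟨?_, ?_⟩
    · show Valued.v ((1 : k) - 1) ≤ _
      rw [sub_self, map_zero]; exact zero_le
    · show Valued.v (c - 0) ≤ _
      rw [sub_zero, hc, hm, ← WithZero.exp_add, ← WithZero.exp_add, WithZero.exp_le_exp]
      omega

/-- The data at one point of the ball. -/
theorem point333 [CompleteSpace k] {l : ℕ} (hl : (l : k) ≠ 0) {m K : ℤ} {s : ℕ}
    (hs : 1 ≤ s) (hm : Valued.v (l : k) = WithZero.exp (-m)) (hKdef : K = 2 * m + s)
    (hK : 0 ≤ K) {ρ : Γ₀} (hρ : ρ = Valued.v (l : k) * WithZero.exp (-(s : ℤ)))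
    {c t d : k} (hc : Valued.v c = WithZero.exp (-K))
    (ht : Valued.v (t - 2) ≤ WithZero.exp (-(2 * K)))
    (hd : Valued.v (d - 1) ≤ WithZero.exp (-(2 * K))) :
    IsRoot333 l c ρ t d ⟨(rootCoord333 l c ρ t d).1, (rootCoord333 l c ρ t d).2⟩ ∧
      Valued.v ((rootCoord333 l c ρ t d).1 - 1) ≤ WithZero.exp (-(m + s)) ∧
      Valued.v ((rootCoord333 l c ρ t d).2) ≤ WithZero.exp (-(m + s)) := by
  have hex := exists_isRoot333 hl hs hm hKdef hK hc ht hd
  rw [← hρ] at hex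
  have h := rootCoord_spec333 l c ρ t d hex
  have hρ' : ρ = WithZero.exp (-(m + s)) := by
    rw [hρ, hm, ← WithZero.exp_add]
    congr 1
    ring
  refine ⟨h, ?_, ?_⟩
  · have h1 : Valued.v ((rootCoord333 l c ρ t d).1 - 1) ≤ ρ := h.1.1
    exact h1.trans (le_of_eq hρ')
  · have h1 : Valued.v ((rootCoord333 l c ρ t d).2 - 0) ≤ ρ := h.1.2
    rw [sub_zero] at h1
    exact h1.trans (le_of_eq hρ')

end Point

/-! ## The estimates in coordinates -/

section Est

variable {k : Type} [Field k] [Valued k Γ₀]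

theorem val_a333 {y c : k} {m K : ℤ} {s : ℕ} (hKdef : K = 2 * m + s)
    (hc : Valued.v c = WithZero.exp (-K)) (hy : Valued.v y ≤ WithZero.exp (-(m + s))) :
    Valued.v (y / c) ≤ WithZero.exp m :=
  vle333 (vdiv333 hy hc) (by omega)

theorem val_x333 {x : k} {m : ℤ} {s : ℕ} (hm : 0 ≤ m)
    (hx : Valued.v (x - 1) ≤ WithZero.exp (-(m + s))) : Valued.v x ≤ WithZero.exp (0 : ℤ) := by
  have e : x = (x - 1) + 1 := by ring
  rw [e]
  refine Valuation.map_add_le _ (vle333 hx (by omega)) ?_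
  rw [map_one, WithZero.exp_zero]

theorem val_b333 {x y c : k} {m K : ℤ} {s : ℕ} (hm : 0 ≤ m) (hKdef : K = 2 * m + s)
    (hc : Valued.v c = WithZero.exp (-K)) (hx : Valued.v (x - 1) ≤ WithZero.exp (-(m + s)))
    (hy : Valued.v y ≤ WithZero.exp (-(m + s))) :
    Valued.v (x - y / c) ≤ WithZero.exp m :=
  Valuation.map_sub_le _ (vle333 (val_x333 hm hx) hm) (val_a333 hKdef hc hy)

theorem tr_est333 {x y c t : k} {m K N₀ : ℤ} {s : ℕ} (hm : 0 ≤ m) (hKdef : K = 2 * m + s)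
    (hN : N₀ ≤ s) (hc : Valued.v c = WithZero.exp (-K))
    (ht : Valued.v (t - 2) ≤ WithZero.exp (-(2 * K)))
    (hx : Valued.v (x - 1) ≤ WithZero.exp (-(m + s)))
    (hy : Valued.v y ≤ WithZero.exp (-(m + s))) :
    Valued.v (y / c * t + 2 * (x - y / c) - 2) ≤ WithZero.exp (-N₀) := by
  have e : y / c * t + 2 * (x - y / c) - 2 = y / c * (t - 2) + 2 * (x - 1) := by ring
  rw [e]
  refine Valuation.map_add_le _ ?_ ?_
  · exact vle333 (vmul333 (val_a333 hKdef hc hy) ht) (by omega)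
  · exact vle333 (vmul333 val_two_le333 hx) (by omega)

theorem det_est333 {x y c t d : k} {m K N₀ : ℤ} {s : ℕ} (hm : 0 ≤ m) (hKdef : K = 2 * m + s)
    (hN : N₀ ≤ s) (hc : Valued.v c = WithZero.exp (-K))
    (ht : Valued.v (t - 2) ≤ WithZero.exp (-(2 * K)))
    (hd : Valued.v (d - 1) ≤ WithZero.exp (-(2 * K)))
    (hx : Valued.v (x - 1) ≤ WithZero.exp (-(m + s)))
    (hy : Valued.v y ≤ WithZero.exp (-(m + s))) :
    Valued.v ((y / c) ^ 2 * d + y / c * (x - y / c) * t + (x - y / c) ^ 2 - 1)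
      ≤ WithZero.exp (-N₀) := by
  have e : (y / c) ^ 2 * d + y / c * (x - y / c) * t + (x - y / c) ^ 2 - 1
      = (y / c) * (y / c) * (d - t + 1) + (y / c) * x * (t - 2) + (x - 1) * (x + 1) := by ring
  rw [e]
  have ha := val_a333 hKdef hc hy
  have hx0 := val_x333 hm hx
  have hx1 : Valued.v (x + 1) ≤ WithZero.exp (0 : ℤ) := by
    refine Valuation.map_add_le _ hx0 ?_
    rw [map_one, WithZero.exp_zero]
  refine Valuation.map_add_le _ (Valuation.map_add_le _ ?_ ?_) ?_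
  · exact vle333 (vmul333 (vmul333 ha ha) (val_delta_le333 ht hd)) (by omega)
  · exact vle333 (vmul333 (vmul333 ha hx0) ht) (by omega)
  · exact vle333 (vmul333 hx hx1) (by omega)

/-- The parameters are Lipschitz in `(t, d)`. -/
theorem param_near333 {c t d t' d' : k} {K : ℤ} (hK : 0 ≤ K)
    (hc : Valued.v c = WithZero.exp (-K)) :
    Valued.v (qα333 c t d - qα333 c t' d')
        ≤ WithZero.exp (2 * K) * max (Valued.v (t - t')) (Valued.v (d - d')) ∧
      Valued.v (qβ333 c t d - qβ333 c t' d')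
        ≤ WithZero.exp (2 * K) * max (Valued.v (t - t')) (Valued.v (d - d')) := by
  refine ⟨?_, ?_⟩
  · have e : qα333 c t d - qα333 c t' d' = ((t - t') - (d - d')) / c ^ 2 := by
      unfold qα333; ring
    rw [e]
    exact vdiv_le333 (Valuation.map_sub_le _ (le_max_left _ _) (le_max_right _ _))
      (val_sq333 hc)
  · have e : qβ333 c t d - qβ333 c t' d' = (t - t') / c := by
      unfold qβ333; ring
    rw [e]
    refine (vdiv_le333 (le_max_left (Valued.v (t - t')) (Valued.v (d - d'))) hc).trans ?_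
    exact mul_le_mul' (WithZero.exp_le_exp.mpr (by omega)) le_rfl

theorem lip_est333 {x y x' y' c : k} {m K : ℤ} {η₀ : Γ₀} (hK : 0 ≤ K)
    (hc : Valued.v c = WithZero.exp (-K))
    (hx : Valued.v (x - x') ≤ WithZero.exp m * (WithZero.exp (2 * K) * η₀))
    (hy : Valued.v (y - y') ≤ WithZero.exp m * (WithZero.exp (2 * K) * η₀)) :
    Valued.v (y / c - y' / c) ≤ WithZero.exp (3 * K + m) * η₀ ∧
      Valued.v ((x - y / c) - (x' - y' / c)) ≤ WithZero.exp (3 * K + m) * η₀ := by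
  have h3 : WithZero.exp K * (WithZero.exp m * (WithZero.exp (2 * K) * η₀))
      = WithZero.exp (3 * K + m) * η₀ := by
    rw [← mul_assoc, ← mul_assoc, ← WithZero.exp_add, ← WithZero.exp_add]
    congr 2
    ring
  have ha : Valued.v (y / c - y' / c) ≤ WithZero.exp (3 * K + m) * η₀ := by
    have e : y / c - y' / c = (y - y') / c := by ring
    rw [e, ← h3]
    exact vdiv_le333 hy hc
  refine ⟨ha, ?_⟩
  have e : (x - y / c) - (x' - y' / c) = (x - x') - (y / c - y' / c) := by ring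
  rw [e]
  refine Valuation.map_sub_le _ (hx.trans ?_) ha
  rw [← mul_assoc, ← WithZero.exp_add]
  exact mul_le_mul' (WithZero.exp_le_exp.mpr (by omega)) le_rfl

end Est

/-! ## The leaf -/

/-- **T6.18g3.1a** (`H820.RootFnC820`, verbatim). -/
theorem rootFnC333 : RootFnC820 := by
  intro k _ _ q l hk hl N₀
  have : CharZero k := hk.char0
  have : CompleteSpace k := hk.complete
  have hl0 : (l : k) ≠ 0 := Nat.cast_ne_zero.mpr hl.ne'
  have hlam : Valued.v (l : k) ≠ 0 := (Valuation.ne_zero_iff _).mpr hl0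
  obtain ⟨ϖ, hϖ⟩ := hk.unif
  obtain ⟨m, hm⟩ : ∃ m : ℤ, Valued.v (l : k) = WithZero.exp (-m) :=
    ⟨-WithZero.log (Valued.v (l : k)), by rw [neg_neg, WithZero.exp_log hlam]⟩
  have hm0 : 0 ≤ m := by
    have h1 := val_natCast_le_one333 (k := k) l
    rw [hm, ← WithZero.exp_zero, WithZero.exp_le_exp] at h1
    omega
  obtain ⟨s, hs1, hsN⟩ : ∃ s : ℕ, 1 ≤ s ∧ N₀ ≤ (s : ℤ) := ⟨(max N₀ 1).toNat, by omega, by omega⟩
  obtain ⟨K, hKdef⟩ : ∃ K : ℤ, K = 2 * m + s := ⟨_, rfl⟩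
  have hK0 : 0 ≤ K := by omega
  obtain ⟨c, hc⟩ : ∃ c : k, Valued.v c = WithZero.exp (-K) := by
    refine ⟨(l : k) ^ 2 * ϖ ^ s, ?_⟩
    rw [map_mul, map_pow, map_pow, hm, hϖ, ← WithZero.exp_nsmul, ← WithZero.exp_nsmul,
      ← WithZero.exp_add]
    congr 1
    rw [hKdef]
    simp only [nsmul_eq_mul]
    push_cast
    ring
  have hc0 : c ≠ 0 := by
    rw [← Valuation.ne_zero_iff (Valued.v : Valuation k Γ₀), hc]
    exact WithZero.exp_ne_zero
  obtain ⟨ρ, hρ⟩ : ∃ ρ : Γ₀, ρ = Valued.v (l : k) * WithZero.exp (-(s : ℤ)) := ⟨_, rfl⟩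
  have hεle : WithZero.exp (-(s : ℤ)) ≤ WithZero.exp (-1 : ℤ) := by
    rw [WithZero.exp_le_exp]; omega
  refine ⟨2 * K, 3 * K + m, fun t d => (rootCoord333 l c ρ t d).2 / c,
    fun t d => (rootCoord333 l c ρ t d).1 - (rootCoord333 l c ρ t d).2 / c, ?_⟩
  intro t d ht hd
  obtain ⟨hroot, hx, hy⟩ := point333 hl0 hs1 hm hKdef hK0 hρ hc ht hd
  obtain ⟨hα, hβ⟩ := param_le333 hK0 hc ht hd
  refine ⟨?_, ?_, ?_, ?_, ?_, ?_⟩
  · intro M htr hdet
    exact matroot333 M c (scaled333 M t d c htr hdet hc0) hc0 _ l hroot.2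
  · exact tr_est333 hm0 hKdef hsN hc ht hx hy
  · exact det_est333 hm0 hKdef hsN hc ht hd hx hy
  · exact vle333 (val_a333 hKdef hc hy) (by omega)
  · exact vle333 (val_b333 hm0 hKdef hc hx hy) (by omega)
  · intro t' d' ht' hd'
    obtain ⟨hroot', hx', hy'⟩ := point333 hl0 hs1 hm hKdef hK0 hρ hc ht' hd'
    obtain ⟨hα', hβ'⟩ := param_le333 hK0 hc ht' hd'
    obtain ⟨hαη, hβη⟩ := param_near333 (t := t) (d := d) (t' := t') (d' := d') hK0 hc
    have hz := qle_mono333 hroot.1 (le_of_eq hρ)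
    have hz' := qle_mono333 hroot'.1 (le_of_eq hρ)
    have hnear := root_near333 hα hβ hα' hβ' hαη hβη hl0 hεle hz hz' (by
      rw [hroot.2, hroot'.2]; rfl)
    have hinv : (Valued.v (l : k))⁻¹ = WithZero.exp m := by
      rw [hm, ← WithZero.exp_neg, neg_neg]
    rw [hinv] at hnear
    exact lip_est333 hK0 hc hnear.1 hnear.2

end Fermat.Agent.LT.T6.H333

end
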